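import Fermat.Agent.MUL.Orig.Lib.Frobenius.Exists
import Fermat.Agent.MUL.S21.Injective

set_option autoImplicit false

/-!
# Lifting inertia from a finite Galois level to `Gal(ℚ̄/ℚ)`

Let `A` be a valuation subring of `ℚ̄`, `L/ℚ` a finite Galois subextension of `ℚ̄` and `s` an
element of `Gal(L/ℚ)` which acts trivially on the algebraic integers of `L` modulo the maximal
ideal of `A`.  Then `s` is the restriction of an element of the inertia group of `A`.
-/

namespace Fermat.Agent.Minkowski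

open Fermat.Agent.FrobExists
open scoped Pointwise
open IsLocalRing

attribute [local instance] isAlgebraic_Qb isAlgClosure_Qb isInvariant_Zb

variable (L : IntermediateField ℚ Qb)

/-- The algebraic integers lying in `L`, as a subalgebra of the ring of all algebraic integers. -/
noncomputable def intL : Subalgebra ℤ Zb :=
  (L.toSubalgebra.restrictScalars ℤ).comap Zb.val

theorem mem_intL_iff (b : Zb) : b ∈ intL L ↔ (b : Qb) ∈ L := Iff.rfl

theorem smul_coe_intL (h : L.fixingSubgroup) (a : intL L) : h • (a : Zb) = a := by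
  apply Subtype.ext
  exact (IntermediateField.mem_fixingSubgroup_iff L h.1).mp h.2 _ a.2

instance smulCommClass_intL : SMulCommClass L.fixingSubgroup (intL L) Zb where
  smul_comm h a b := by
    change h • ((a : Zb) * b) = (a : Zb) * h • b
    rw [smul_mul', smul_coe_intL]

theorem isInvariant_intL : Algebra.IsInvariant (intL L) Zb L.fixingSubgroup := by
  constructor
  intro b hb
  have h1 : (b : Qb) ∈ IntermediateField.fixedField L.fixingSubgroup := by
    intro h
    exact congrArg Subtype.val (hb h)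
  rw [InfiniteGalois.fixedField_fixingSubgroup] at h1
  exact ⟨⟨b, h1⟩, rfl⟩

theorem compactSpace_fixingSubgroup [FiniteDimensional ℚ L] : CompactSpace L.fixingSubgroup :=
  isCompact_iff_compactSpace.mp (IntermediateField.fixingSubgroup_isClosed L).isCompact

theorem continuousSMul_fixingSubgroup_Zb :
    letI : TopologicalSpace Zb := ⊥
    ContinuousSMul L.fixingSubgroup Zb := by
  let _ : TopologicalSpace Zb := ⊥
  have := continuousSMul_Zb
  infer_instance

/-- An element of `Gal(ℚ̄/ℚ)` maps the normal subfield `L` into itself. -/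
theorem apply_mem_of_normal [Normal ℚ L] (σ : GQ) {x : Qb} (hx : x ∈ L) : σ x ∈ L := by
  have h := AlgEquiv.restrictNormal_commutes σ L ⟨x, hx⟩
  have h' : σ x = ((σ.restrictNormal L ⟨x, hx⟩ : L) : Qb) := h.symm
  rw [h']
  exact (σ.restrictNormal L ⟨x, hx⟩).2

theorem smul_mem_intL [Normal ℚ L] (σ : GQ) {b : Zb} (hb : b ∈ intL L) : σ • b ∈ intL L :=
  apply_mem_of_normal L σ hb

/-- An element of the absolute Galois group which stabilises the centre of `A` and acts
trivially on the algebraic integers modulo the centre lies in the inertia group of `A`. -/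
theorem mem_inertiaSubgroupIn_of_forall_sub_mem_centre (A : ValuationSubring Qb) (σ : GQ)
    (hσQ : σ • centre A = centre A) (hσ : ∀ b : Zb, σ • b - b ∈ centre A) :
    σ ∈ A.inertiaSubgroupIn ℚ := by
  have hdec := mem_decompositionSubgroup_of_smul_centre A σ hσQ
  refine ⟨⟨σ, hdec⟩, ?_, rfl⟩
  change MulSemiringAction.toRingAut (A.decompositionSubgroup ℚ) (ResidueField A) ⟨σ, hdec⟩ = 1
  ext x
  change (⟨σ, hdec⟩ : A.decompositionSubgroup ℚ) • x = x
  obtain ⟨a, rfl⟩ := residue_surjective x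
  obtain ⟨s, hs, hsu, hsx⟩ := exists_integral_mul A a.1 a.2
  let g : A.decompositionSubgroup ℚ := ⟨σ, hdec⟩
  let sZ : Zb := ⟨s, hs⟩
  let bZ : Zb := ⟨s * a, hsx⟩
  let r : Zb →+* ResidueField A := (residue A).comp (inclV A)
  have hr : ∀ b : Zb, b ∈ centre A → r b = 0 := fun b hb =>
    (residue_eq_zero_iff _).mpr hb
  have hrσ : ∀ b : Zb, r (σ • b) = r b := by
    intro b
    have := hr _ (hσ b)
    rwa [map_sub, sub_eq_zero] at this
  have hrs : r sZ ≠ 0 := by
    intro h
    have : sZ ∈ centre A := (residue_eq_zero_iff _).mp h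
    rw [mem_centre_iff] at this
    exact hsu this
  have e1 : inclV A sZ * a = inclV A bZ := Subtype.ext rfl
  have e2 : inclV A (σ • sZ) * (g • a) = inclV A (σ • bZ) := by
    apply Subtype.ext
    change σ s * σ a = σ (s * a)
    rw [map_mul]
  have e3 : r (σ • sZ) * residue A (g • a) = r (σ • bZ) := by
    have := congrArg (residue A) e2
    rwa [map_mul] at this
  have e4 : r bZ = r sZ * residue A a := by
    have := congrArg (residue A) e1
    rw [map_mul] at this
    exact this.symm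
  rw [hrσ, hrσ, e4] at e3
  exact mul_left_cancel₀ hrs e3

theorem restrictNormalHom_eq_one_of_mem_fixingSubgroup [Normal ℚ L] {ρ : GQ}
    (hρ : ρ ∈ L.fixingSubgroup) : AlgEquiv.restrictNormalHom L ρ = 1 := by
  ext x
  have h := AlgEquiv.restrictNormal_commutes ρ L x
  have h2 := (IntermediateField.mem_fixingSubgroup_iff L ρ).mp hρ _ x.2
  exact h.trans h2

/-- If `σ` restricts to `s` on `L` and `s` is trivial on the integers of `L` modulo the centre
of `A`, then `σ` is trivial on the integers of `L` modulo the centre of `A`. -/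
theorem smul_sub_mem_centre_of_restrict [Normal ℚ L] (A : ValuationSubring Qb) (s : L ≃ₐ[ℚ] L)
    (hs : ∀ x : L, IsIntegral ℤ x → ((s x : L) : Qb) - (x : Qb) ∈ A.nonunits)
    (σ : GQ) (hσ : AlgEquiv.restrictNormalHom L σ = s) (a : Zb) (ha : a ∈ intL L) :
    σ • a - a ∈ centre A := by
  rw [mem_centre_iff]
  have hx : IsIntegral ℤ (⟨(a : Qb), ha⟩ : L) := by
    have h1 : IsIntegral ℤ (algebraMap L Qb ⟨(a : Qb), ha⟩) := a.2
    exact (isIntegral_algebraMap_iff (FaithfulSMul.algebraMap_injective L Qb)).mp h1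
  have h := hs ⟨(a : Qb), ha⟩ hx
  have h2 : ((s ⟨(a : Qb), ha⟩ : L) : Qb) = σ (a : Qb) := by
    rw [← hσ]
    exact AlgEquiv.restrictNormal_commutes σ L ⟨(a : Qb), ha⟩
  rw [h2] at h
  exact h

/-- **Lifting inertia.** -/
theorem exists_mem_inertiaSubgroupIn_restrict
    (A : ValuationSubring (AlgebraicClosure ℚ)) (q : ℕ) (hq : q.Prime) (hA : A.LiesOverPrime q)
    (L : IntermediateField ℚ (AlgebraicClosure ℚ)) [FiniteDimensional ℚ L] [IsGalois ℚ L]
    (s : L ≃ₐ[ℚ] L)
    (hs : ∀ x : L, IsIntegral ℤ x →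
      ((s x : L) : AlgebraicClosure ℚ) - (x : AlgebraicClosure ℚ) ∈ A.nonunits) :
    ∃ σ ∈ A.inertiaSubgroupIn ℚ, AlgEquiv.restrictNormalHom L σ = s := by
  let _ : TopologicalSpace Zb := ⊥
  have : DiscreteTopology Zb := ⟨rfl⟩
  have := continuousSMul_fixingSubgroup_Zb L
  have := compactSpace_fixingSubgroup L
  have := isInvariant_intL L
  -- Step 1: a lift stabilising the centre
  obtain ⟨σ₀, hσ₀⟩ := AlgEquiv.restrictNormalHom_surjective (F := ℚ) (K₁ := L) Qb s
  have hunder : (σ₀ • centre A).under (intL L) = (centre A).under (intL L) := by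
    ext a
    rw [Ideal.mem_comap, Ideal.mem_comap, Ideal.mem_pointwise_smul_iff_inv_smul_mem]
    have ha' : σ₀⁻¹ • (a : Zb) ∈ intL L := smul_mem_intL L σ₀⁻¹ a.2
    have h := smul_sub_mem_centre_of_restrict L A s hs σ₀ hσ₀ _ ha'
    rw [smul_inv_smul] at h
    constructor
    · intro h1
      have := (centre A).add_mem h h1
      simpa using this
    · intro h1
      have := (centre A).sub_mem h1 h
      simpa using this
  obtain ⟨ρ, hρ⟩ := Algebra.IsInvariant.exists_smul_of_under_eq_of_profinite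
    (A := intL L) (G := L.fixingSubgroup) (σ₀ • centre A) (centre A) hunder
  let σ₁ : GQ := ρ.1 * σ₀
  have hσ₁Q : σ₁ • centre A = centre A := by
    ext x
    rw [Ideal.mem_pointwise_smul_iff_inv_smul_mem]
    have h1 := SetLike.ext_iff.mp hρ x
    rw [Ideal.mem_pointwise_smul_iff_inv_smul_mem,
      Ideal.mem_pointwise_smul_iff_inv_smul_mem] at h1
    have h2 : σ₁⁻¹ • x = σ₀⁻¹ • ρ⁻¹ • x := by
      change (ρ.1 * σ₀)⁻¹ • x = σ₀⁻¹ • (ρ.1)⁻¹ • x
      rw [mul_inv_rev, mul_smul]
    rw [h2]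
    exact h1.symm
  have hσ₁ : AlgEquiv.restrictNormalHom L σ₁ = s := by
    rw [map_mul, restrictNormalHom_eq_one_of_mem_fixingSubgroup L ρ.2, one_mul, hσ₀]
  -- Step 2: correct the lift so that it acts trivially modulo the centre
  let g₁ : MulAction.stabilizer GQ (centre A) := ⟨σ₁, hσ₁Q⟩
  let e₁ : (Zb ⧸ centre A) ≃ₐ[ℤ ⧸ (centre A).under ℤ] (Zb ⧸ centre A) :=
    Ideal.Quotient.stabilizerHom (centre A) ((centre A).under ℤ) GQ g₁
  let e : (Zb ⧸ centre A) ≃ₐ[intL L ⧸ (centre A).under (intL L)] (Zb ⧸ centre A) :=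
    AlgEquiv.ofRingEquiv (f := e₁.toRingEquiv) (by
      intro r
      obtain ⟨a, rfl⟩ := Ideal.Quotient.mk_surjective r
      change Ideal.Quotient.mk (centre A) (σ₁ • (a : Zb)) = Ideal.Quotient.mk (centre A) (a : Zb)
      rw [Ideal.Quotient.eq]
      exact smul_sub_mem_centre_of_restrict L A s hs σ₁ hσ₁ _ a.2)
  obtain ⟨ρ', hρ'⟩ := Ideal.Quotient.stabilizerHom_surjective_of_profinite
    (G := L.fixingSubgroup) ((centre A).under (intL L)) (centre A) e
  have hρ'b : ∀ b : Zb, σ₁ • b - ρ'.1.1 • b ∈ centre A := by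
    intro b
    have h := DFunLike.congr_fun hρ' (Ideal.Quotient.mk (centre A) b)
    have h' : Ideal.Quotient.mk (centre A) (ρ'.1.1 • b) = Ideal.Quotient.mk (centre A) (σ₁ • b) := h
    rw [← Ideal.Quotient.eq]
    exact h'.symm
  have hρ'Q : ∀ b : Zb, (ρ'.1.1)⁻¹ • b ∈ centre A ↔ b ∈ centre A := by
    intro b
    have h := SetLike.ext_iff.mp ρ'.2 b
    rw [Ideal.mem_pointwise_smul_iff_inv_smul_mem] at h
    exact h
  let σ : GQ := (ρ'.1.1)⁻¹ * σ₁
  have hσQ : σ • centre A = centre A := by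
    ext x
    rw [Ideal.mem_pointwise_smul_iff_inv_smul_mem]
    have h2 : σ⁻¹ • x = σ₁⁻¹ • ρ'.1.1 • x := by
      change ((ρ'.1.1)⁻¹ * σ₁)⁻¹ • x = σ₁⁻¹ • ρ'.1.1 • x
      rw [mul_inv_rev, inv_inv, mul_smul]
    rw [h2, ← Ideal.mem_pointwise_smul_iff_inv_smul_mem, hσ₁Q, ← hρ'Q, inv_smul_smul]
  have hσb : ∀ b : Zb, σ • b - b ∈ centre A := by
    intro b
    have h := (hρ'Q _).mpr (hρ'b b)
    rw [smul_sub, inv_smul_smul] at h
    rw [mul_smul]
    exact h
  refine ⟨σ, mem_inertiaSubgroupIn_of_forall_sub_mem_centre A σ hσQ hσb, ?_⟩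
  rw [map_mul, map_inv, restrictNormalHom_eq_one_of_mem_fixingSubgroup L ρ'.1.2, inv_one,
    one_mul, hσ₁]

end Fermat.Agent.Minkowski
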